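import Mathlib
import Fermat.Agent.Lib.Cheb.Chebotarev
import Fermat.Agent.Lib.Cheb.H476.FrobConj
import Fermat.Agent.LT.A2.H38.GalSeedSpec

/-!
# Row LT, tower A2, branch GALSEED, leaf A2.01.10 `NonInvC` (helper800), OFF-MAIN

`nonInvC800 : Fermat.Agent.LT.A2.H38.NonInvC` (Spec of helper38, `LT/A2/H38/GalSeedSpec.lean`,
origin/helper38@fd6f38a61), UNCONDITIONAL.

Proof.  `ρ` factors through a finite level (`exists_level800`, Krull topology); Chebotarev over `ℚ`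
(on main, `Lib.Cheb.chebotarev`) gives a prime `p` outside the exceptional set of `IsArtinOf`, a
valuation subring `A | p` and a Frobenius `σ` at `A` with `ρ σ = g0`.  With `t` over
`t0 = [[1,1],[1,2]]` (an element of `Q8` outside `C4`) the conjugate `t σ t⁻¹` is a Frobenius at
`t • A` (`Lib.Cheb.H476.isFrobeniusAt_conj`) with `ρ`-value `t0 g0 t0⁻¹ = g0 ^ 3`.  The places
`w₁ = A ∩ L`, `w₂ = t A ∩ L` lie over the same place `v = A ∩ E` (`t` fixes `E`), and
`χ(ϖ_{w₁}) = θ(g0) = i`, `χ(ϖ_{w₂}) = θ(g0 ^ 3) = -i`; hence also `w₁ ≠ w₂`.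

Reusable pieces (any later leaf of the branch may copy them):
* `exists_level800`        : a continuous `ρ` to a discrete group factors through a finite level;
* `idealUnder800`, `exists_placeUnder800`, `placeUnder_unique800` : the place of `K ⊂ ℚ̄` under a
  valuation subring of `ℚ̄` over a prime number (`PlaceUnder` of the Spec);
* `liesOverPl800`          : `A ∩ L` lies over `A ∩ E` (`LiesOverPl` of `LT/A2/Spec.lean`);
* `exists_unifIdele800`    : uniformiser ideles exist at every finite place (`IsUnifIdeleAt`).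
-/

set_option autoImplicit false
set_option linter.style.haveILetI false

open IsDedekindDomain NumberField AutomorphicForm
open scoped MatrixGroups Pointwise

noncomputable section

namespace Fermat.Agent.LT.A2.H800

open Fermat.Agent.LT.H130 Fermat.Agent.LT.H556 Fermat.Agent.LT.A2 Fermat.Agent.LT.A2.H38

local notation "Γℚ" => (AlgebraicClosure ℚ ≃ₐ[ℚ] AlgebraicClosure ℚ)
local notation "Qb" => AlgebraicClosure ℚ

/-! ## Step A: `ρ` factors through a finite level -/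

theorem exists_level800 {G : Type*} [Group G] [TopologicalSpace G] [DiscreteTopology G]
    (ρ : Γℚ →* G) (hρ : Continuous ρ) :
    ∃ E : IntermediateField ℚ Qb, FiniteDimensional ℚ E ∧
      ∀ σ τ : Γℚ, (∀ x ∈ E, τ x = σ x) → ρ τ = ρ σ := by
  have hopen : IsOpen (ρ ⁻¹' {1}) := (isOpen_discrete _).preimage hρ
  have hmem : ρ ⁻¹' {1} ∈ nhds (1 : Γℚ) := hopen.mem_nhds (by simp)
  obtain ⟨E, hE, hsub⟩ := (krullTopology_mem_nhds_one_iff ℚ Qb _).mp hmem
  refine ⟨E, hE, fun σ τ h => ?_⟩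
  have h1 : σ⁻¹ * τ ∈ E.fixingSubgroup := by
    rw [IntermediateField.mem_fixingSubgroup_iff]
    intro x hx
    show σ⁻¹ (τ x) = x
    rw [h x hx]
    exact Fermat.Agent.Lib.Cheb.H476.inv_apply_apply σ x
  have h2 : ρ (σ⁻¹ * τ) = 1 := hsub h1
  rw [map_mul, map_inv, inv_mul_eq_one] at h2
  exact h2.symm


/-! ## Steps B, C: two Frobenius elements over one prime with `ρ`-values `g0`, `g0 ^ 3` -/

/-- An element of `Q8 ∖ C4`. -/
def t0 : GL (Fin 2) (ZMod 3) := ⟨!![1, 1; 1, 2], !![2, 2; 2, 1], by decide, by decide⟩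

theorem det_t0 : Matrix.GeneralLinearGroup.det t0 = 1 := Units.ext (by decide)

theorem t0_pow_four : t0 ^ 4 = 1 := Units.ext (by decide)

theorem t0_conj : t0 * g0 * t0⁻¹ = g0 ^ 3 := by
  rw [mul_inv_eq_iff_eq_mul]
  exact Units.ext (by decide)

theorem g0_ne_one : g0 ≠ 1 := by
  intro h
  have := congrArg (fun u : GL (Fin 2) (ZMod 3) => (u : Matrix (Fin 2) (Fin 2) (ZMod 3)) 0 0) h
  revert this
  decide

theorem g0_cube_ne_one : g0 ^ 3 ≠ 1 := by
  intro h
  have := congrArg (fun u : GL (Fin 2) (ZMod 3) => (u : Matrix (Fin 2) (Fin 2) (ZMod 3)) 0 0) h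
  revert this
  decide

theorem g0_cube_ne_g0 : g0 ^ 3 ≠ g0 := by
  intro h
  have := congrArg (fun u : GL (Fin 2) (ZMod 3) => (u : Matrix (Fin 2) (Fin 2) (ZMod 3)) 0 1) h
  revert this
  decide

theorem g0_cube_ne_g0_sq : g0 ^ 3 ≠ g0 ^ 2 := by
  intro h
  have := congrArg (fun u : GL (Fin 2) (ZMod 3) => (u : Matrix (Fin 2) (Fin 2) (ZMod 3)) 0 0) h
  revert this
  decide

theorem thetaVal_g0 : thetaVal g0 = Complex.I := by
  unfold thetaVal
  rw [if_neg g0_ne_one, if_pos rfl]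

theorem thetaVal_g0_cube : thetaVal (g0 ^ 3) = -Complex.I := by
  unfold thetaVal
  rw [if_neg g0_cube_ne_one, if_neg g0_cube_ne_g0, if_neg g0_cube_ne_g0_sq, if_pos rfl]

theorem isLeastPowC4_one {g : GL (Fin 2) (ZMod 3)} (hg : g ∈ C4) : IsLeastPowC4 g 1 := by
  refine ⟨Nat.one_pos, by rwa [pow_one], fun k hk hk1 => ?_⟩
  omega

theorem g0_mem_C4 : g0 ∈ C4 := Subgroup.mem_zpowers g0

theorem g0_cube_mem_C4 : g0 ^ 3 ∈ C4 := Subgroup.pow_mem _ g0_mem_C4 3

/-- Chebotarev (on main) at `g0`, and the conjugate by an element over `t0`. -/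
theorem exists_two_frob800 (ρ : Γℚ →* GL (Fin 2) (ZMod 3)) (hρ : Continuous ρ)
    (hsurj : Function.Surjective ρ) (S : Finset ℕ) :
    ∃ (p : ℕ) (A : ValuationSubring Qb) (σ t : Γℚ),
      p.Prime ∧ p ∉ S ∧ A.LiesOverPrime p ∧ A.IsFrobeniusAt σ p ∧ ρ σ = g0 ∧
      ρ t = t0 ∧ (t • A).LiesOverPrime p ∧ (t • A).IsFrobeniusAt (t * σ * t⁻¹) p ∧
      ρ (t * σ * t⁻¹) = g0 ^ 3 := by
  obtain ⟨E, hE, hlev⟩ := exists_level800 ρ hρ
  obtain ⟨σ₀, hσ₀⟩ := hsurj g0
  obtain ⟨t, ht⟩ := hsurj t0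
  obtain ⟨p, A, σ, hp, hpS, hA, hσ, -, hσσ₀⟩ := Fermat.Agent.Lib.Cheb.chebotarev E hE σ₀ S
  have hρσ : ρ σ = g0 := by rw [hlev σ₀ σ hσσ₀, hσ₀]
  refine ⟨p, A, σ, t, hp, hpS, hA, hσ, hρσ, ht,
    Fermat.Agent.Lib.Cheb.H476.liesOverPrime_smul' t hA,
    Fermat.Agent.Lib.Cheb.H476.isFrobeniusAt_conj t hσ, ?_⟩
  rw [map_mul, map_mul, map_inv, hρσ, ht, t0_conj]

/-! ## Step D: the place of a number field `K ⊂ ℚ̄` under a valuation subring of `ℚ̄` -/

theorem coe_mem800 (K : IntermediateField ℚ Qb) (A : ValuationSubring Qb) (x : 𝓞 K) :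
    (((x : K) : Qb)) ∈ A :=
  Fermat.Agent.S54.isIntegral_mem_valuationSubring A
    (map_isIntegral_int K.val (RingOfIntegers.isIntegral_coe x))

/-- The ideal of `𝓞 K` cut out by the valuation subring `A` of `ℚ̄`. -/
def idealUnder800 (K : IntermediateField ℚ Qb) (A : ValuationSubring Qb) : Ideal (𝓞 K) where
  carrier := {x | (((x : K) : Qb)) ∈ A.nonunits}
  add_mem' := fun {a b} ha hb => by
    show ((((a + b : 𝓞 K) : K) : Qb)) ∈ A.nonunits
    have h : ((((a + b : 𝓞 K) : K) : Qb)) = ((a : K) : Qb) + ((b : K) : Qb) := by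
      push_cast
      rfl
    rw [h]
    exact A.nonunits.add_mem ha hb
  zero_mem' := by
    show ((((0 : 𝓞 K) : K) : Qb)) ∈ A.nonunits
    have h : ((((0 : 𝓞 K) : K) : Qb)) = 0 := by
      push_cast
      rfl
    rw [h]
    exact A.nonunits.zero_mem
  smul_mem' := fun c b hb => by
    show ((((c • b : 𝓞 K) : K) : Qb)) ∈ A.nonunits
    have h : ((((c • b : 𝓞 K) : K) : Qb)) = ((c : K) : Qb) * ((b : K) : Qb) := by
      rw [smul_eq_mul]
      push_cast
      rfl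
    rw [h]
    obtain ⟨hb1, hb2⟩ := ValuationSubring.mem_nonunits_iff_exists_mem_maximalIdeal.mp hb
    have hc : ((c : K) : Qb) ∈ A := coe_mem800 K A c
    have := Ideal.mul_mem_left _ (⟨_, hc⟩ : A) hb2
    exact ValuationSubring.mem_nonunits_iff_exists_mem_maximalIdeal.mpr ⟨_, this⟩

theorem mem_idealUnder800 (K : IntermediateField ℚ Qb) (A : ValuationSubring Qb) (x : 𝓞 K) :
    x ∈ idealUnder800 K A ↔ (((x : K) : Qb)) ∈ A.nonunits := Iff.rfl

theorem idealUnder800_isPrime (K : IntermediateField ℚ Qb) (A : ValuationSubring Qb) :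
    (idealUnder800 K A).IsPrime := by
  constructor
  · intro h
    have h1 : (1 : 𝓞 K) ∈ idealUnder800 K A := by rw [h]; trivial
    rw [mem_idealUnder800] at h1
    have h2 : ((((1 : 𝓞 K) : K) : Qb)) = 1 := by
      push_cast
      rfl
    rw [h2, ValuationSubring.mem_nonunits_iff, map_one] at h1
    exact lt_irrefl _ h1
  · intro a b hab
    rw [mem_idealUnder800] at hab
    have h : ((((a * b : 𝓞 K) : K) : Qb)) = ((a : K) : Qb) * ((b : K) : Qb) := by
      push_cast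
      rfl
    rw [h] at hab
    by_contra hcon
    rw [not_or, mem_idealUnder800, mem_idealUnder800] at hcon
    obtain ⟨ha, hb⟩ := hcon
    have ha' : A.valuation ((a : K) : Qb) = 1 := by
      have h1 := (A.valuation_le_one_iff _).mpr (coe_mem800 K A a)
      have h2 : ¬ A.valuation ((a : K) : Qb) < 1 := fun h3 =>
        ha (A.mem_nonunits_iff.mpr h3)
      exact le_antisymm h1 (not_lt.mp h2)
    have hb' : A.valuation ((b : K) : Qb) = 1 := by
      have h1 := (A.valuation_le_one_iff _).mpr (coe_mem800 K A b)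
      have h2 : ¬ A.valuation ((b : K) : Qb) < 1 := fun h3 =>
        hb (A.mem_nonunits_iff.mpr h3)
      exact le_antisymm h1 (not_lt.mp h2)
    have h3 := A.mem_nonunits_iff.mp hab
    rw [map_mul, ha', hb', one_mul] at h3
    exact lt_irrefl _ h3

theorem natCast_mem_idealUnder800 (K : IntermediateField ℚ Qb) (A : ValuationSubring Qb)
    {p : ℕ} (hA : A.LiesOverPrime p) : ((p : ℕ) : 𝓞 K) ∈ idealUnder800 K A := by
  rw [mem_idealUnder800]
  have h : (((((p : ℕ) : 𝓞 K) : K) : Qb)) = (p : Qb) := by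
    push_cast
    rfl
  rw [h]
  exact hA

/-- The place of `K` under `A`. -/
theorem exists_placeUnder800 (K : IntermediateField ℚ Qb) [NumberField K]
    (A : ValuationSubring Qb) {p : ℕ} (hp : p.Prime) (hA : A.LiesOverPrime p) :
    ∃ w : HeightOneSpectrum (𝓞 K), PlaceUnder K A w := by
  refine ⟨⟨idealUnder800 K A, idealUnder800_isPrime K A, ?_⟩, fun x => Iff.rfl⟩
  intro h
  have h1 := natCast_mem_idealUnder800 K A hA
  rw [h, Ideal.mem_bot] at h1
  have h2 : ((p : ℕ) : 𝓞 K) ≠ 0 := Nat.cast_ne_zero.mpr hp.ne_zero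
  exact h2 h1

theorem placeUnder_unique800 (K : IntermediateField ℚ Qb) [NumberField K]
    (A : ValuationSubring Qb) {w w' : HeightOneSpectrum (𝓞 K)}
    (h : PlaceUnder K A w) (h' : PlaceUnder K A w') : w = w' := by
  apply HeightOneSpectrum.ext
  ext x
  rw [h x, h' x]

/-! ## Step E: places of `L` over places of `E` -/

theorem liesOverPl800 (ρ : Γℚ →* GL (Fin 2) (ZMod 3)) [NumberField (fieldE ρ)]
    [NumberField (fieldL ρ)] (A : ValuationSubring Qb)
    {w : HeightOneSpectrum (𝓞 (fieldL ρ))} {v : HeightOneSpectrum (𝓞 (fieldE ρ))}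
    (hw : PlaceUnder (fieldL ρ) A w) (hv : PlaceUnder (fieldE ρ) A v) :
    letI := algEL ρ
    LiesOverPl (fieldE ρ) w v := by
  letI := algEL ρ
  show w.asIdeal.comap (algebraMap (𝓞 (fieldE ρ)) (𝓞 (fieldL ρ))) = v.asIdeal
  ext x
  rw [Ideal.mem_comap, hw, hv]
  rfl

theorem mem_subQ8_of800 (ρ : Γℚ →* GL (Fin 2) (ZMod 3)) {t : Γℚ} (ht : ρ t = t0) :
    t ∈ subQ8 ρ := by
  refine Subgroup.subset_closure ⟨?_, ?_⟩
  · rw [ht, det_t0]
  · rw [ht, t0_pow_four]

theorem placeUnder_smul800 (ρ : Γℚ →* GL (Fin 2) (ZMod 3)) [NumberField (fieldE ρ)]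
    (A : ValuationSubring Qb) {t : Γℚ} (ht : t ∈ subQ8 ρ)
    {v : HeightOneSpectrum (𝓞 (fieldE ρ))} (hv : PlaceUnder (fieldE ρ) A v) :
    PlaceUnder (fieldE ρ) (t • A) v := by
  intro x
  rw [hv x, Fermat.Agent.Lib.Cheb.H476.mem_nonunits_smul_iff]
  have hx : (((x : fieldE ρ) : Qb)) ∈ fieldE ρ := (x : fieldE ρ).2
  have h1 : t (((x : fieldE ρ) : Qb)) = (((x : fieldE ρ) : Qb)) :=
    (IntermediateField.mem_fixedField_iff _ _).mp hx t ht
  have h2 : t⁻¹ (((x : fieldE ρ) : Qb)) = (((x : fieldE ρ) : Qb)) := by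
    conv_lhs => rw [← h1]
    exact Fermat.Agent.Lib.Cheb.H476.inv_apply_apply t _
  rw [h2]

/-! ## Step F: uniformiser ideles -/

theorem exists_unifIdele800 (L : Type) [Field L] [NumberField L]
    (w : HeightOneSpectrum (𝓞 L)) : ∃ z : (A0.Adl L)ˣ, IsUnifIdeleAt w z := by
  classical
  obtain ⟨π, hπ⟩ := w.valuation_exists_uniformizer L
  have hv : Valued.v (π : w.adicCompletion L) = WithZero.exp (-1 : ℤ) := by
    rw [HeightOneSpectrum.valuedAdicCompletion_eq_valuation', hπ]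
  have hne : (π : w.adicCompletion L) ≠ 0 := by
    intro h
    rw [h, map_zero] at hv
    exact WithZero.exp_ne_zero hv.symm
  let a : FiniteAdeleRing (𝓞 L) L :=
    RestrictedProduct.mulSingle
      (fun v : HeightOneSpectrum (𝓞 L) => v.adicCompletionIntegers L) w
      (π : w.adicCompletion L)
  let b : FiniteAdeleRing (𝓞 L) L :=
    RestrictedProduct.mulSingle
      (fun v : HeightOneSpectrum (𝓞 L) => v.adicCompletionIntegers L) w
      (π : w.adicCompletion L)⁻¹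
  have ha_same : a w = (π : w.adicCompletion L) :=
    RestrictedProduct.mulSingle_eq_same _ _ _
  have ha_ne : ∀ w' : HeightOneSpectrum (𝓞 L), w' ≠ w → a w' = 1 := fun w' h =>
    RestrictedProduct.mulSingle_eq_of_ne _ _ h
  have hb_same : b w = (π : w.adicCompletion L)⁻¹ :=
    RestrictedProduct.mulSingle_eq_same _ _ _
  have hb_ne : ∀ w' : HeightOneSpectrum (𝓞 L), w' ≠ w → b w' = 1 := fun w' h =>
    RestrictedProduct.mulSingle_eq_of_ne _ _ h
  have hab : a * b = 1 := by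
    apply FiniteAdeleRing.ext
    intro v
    show a v * b v = 1
    by_cases h : v = w
    · subst h
      rw [ha_same, hb_same, mul_inv_cancel₀ hne]
    · rw [ha_ne v h, hb_ne v h, mul_one]
  let x : A0.Adl L := ((1 : InfiniteAdeleRing L), a)
  let y : A0.Adl L := ((1 : InfiniteAdeleRing L), b)
  have hxy : x * y = 1 := by
    show (((1 : InfiniteAdeleRing L) * 1, a * b) : InfiniteAdeleRing L × FiniteAdeleRing (𝓞 L) L)
      = (1, 1)
    rw [hab, mul_one]
  have hyx : y * x = 1 := by rw [mul_comm]; exact hxy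
  refine ⟨⟨x, y, hxy, hyx⟩, ⟨fun u => rfl, fun w' h => ha_ne w' h⟩, ?_⟩
  show Valued.v (a w) = WithZero.exp (-1 : ℤ)
  rw [ha_same, hv]

/-! ## Step G: the leaf -/

theorem I_ne_neg_I800 : Complex.I ≠ -Complex.I := by
  intro h
  have h1 := congrArg Complex.im h
  rw [Complex.neg_im, Complex.I_im] at h1
  norm_num at h1

/-- **Leaf A2.01.10 `NonInvC`** (tower A2, branch GALSEED, Spec of helper38). -/
theorem nonInvC800 : NonInvC := by
  intro ρ Ψ hyp hNE hNL χ hart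
  letI := algEL ρ
  obtain ⟨S, hS⟩ := hart
  obtain ⟨p, A, σ, t, hp, hpS, hA, hσ, hρσ, ht, hA', hσ', hρσ'⟩ :=
    exists_two_frob800 ρ hyp.cont hyp.surj S
  obtain ⟨w₁, hw₁⟩ := exists_placeUnder800 (fieldL ρ) A hp hA
  obtain ⟨w₂, hw₂⟩ := exists_placeUnder800 (fieldL ρ) (t • A) hp hA'
  obtain ⟨v, hv⟩ := exists_placeUnder800 (fieldE ρ) A hp hA
  have hv' : PlaceUnder (fieldE ρ) (t • A) v :=
    placeUnder_smul800 ρ A (mem_subQ8_of800 ρ ht) hv
  obtain ⟨z₁, hz₁⟩ := exists_unifIdele800 (fieldL ρ) w₁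
  obtain ⟨z₂, hz₂⟩ := exists_unifIdele800 (fieldL ρ) w₂
  obtain ⟨hu₁, hval₁⟩ := hS p hp hpS A hA σ hσ w₁ hw₁
  obtain ⟨hu₂, hval₂⟩ := hS p hp hpS (t • A) hA' (t * σ * t⁻¹) hσ' w₂ hw₂
  have hl₁ : IsLeastPowC4 (ρ σ) 1 := isLeastPowC4_one (by rw [hρσ]; exact g0_mem_C4)
  have hl₂ : IsLeastPowC4 (ρ (t * σ * t⁻¹)) 1 :=
    isLeastPowC4_one (by rw [hρσ']; exact g0_cube_mem_C4)
  have h1 : ∀ z : (A0.Adl (fieldL ρ))ˣ, IsUnifIdeleAt w₁ z → (χ z : ℂ) = Complex.I := by
    intro z hz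
    rw [hval₁ 1 hl₁ z hz, pow_one, hρσ, thetaVal_g0]
  have h2 : ∀ z : (A0.Adl (fieldL ρ))ˣ, IsUnifIdeleAt w₂ z → (χ z : ℂ) = -Complex.I := by
    intro z hz
    rw [hval₂ 1 hl₂ z hz, pow_one, hρσ', thetaVal_g0_cube]
  have hne : χ z₁ ≠ χ z₂ := by
    intro h
    have h3 : (χ z₁ : ℂ) = (χ z₂ : ℂ) := by rw [h]
    rw [h1 z₁ hz₁, h2 z₂ hz₂] at h3
    exact I_ne_neg_I800 h3
  have hw : w₁ ≠ w₂ := by
    intro h
    have h3 := h1 z₂ (h ▸ hz₂)
    rw [h2 z₂ hz₂] at h3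
    exact I_ne_neg_I800 h3.symm
  exact ⟨v, w₁, w₂, z₁, z₂, hw, liesOverPl800 ρ A hw₁ hv, liesOverPl800 ρ (t • A) hw₂ hv',
    hu₁, hu₂, hz₁, hz₂, hne⟩

end Fermat.Agent.LT.A2.H800

end
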